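import Mathlib
import Fermat.Prelude.Def_FormalHecke_Eigensystem

set_option autoImplicit false

namespace Fermat.Agent.S49

open FormalHecke

variable {R : Type*} [CommRing R]

/-- The Hecke relation at `n = ℓ ^ (r + 1)` is the prime power recursion. -/
theorem isEigensystem_prime_pow_rec {e a : ℕ → R} (h : IsEigensystem e a)
    {ℓ : ℕ} (hℓ : ℓ.Prime) (r : ℕ) :
    a (ℓ ^ (r + 2)) = a ℓ * a (ℓ ^ (r + 1)) - e ℓ * a (ℓ ^ r) := by
  have h1 := h.2 ℓ hℓ (ℓ ^ (r + 1))
  have hdvd : ℓ ∣ ℓ ^ (r + 1) := dvd_pow_self ℓ (Nat.succ_ne_zero r)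
  have hdiv : ℓ ^ (r + 1) / ℓ = ℓ ^ r := by
    rw [pow_succ, Nat.mul_div_cancel _ hℓ.pos]
  rw [if_pos hdvd, hdiv] at h1
  have h2 : ℓ * ℓ ^ (r + 1) = ℓ ^ (r + 2) := by ring
  rw [h2] at h1
  rw [← h1]; ring

/-- Relation when `ℓ ∤ n`. -/
theorem isEigensystem_mul_of_not_dvd {e a : ℕ → R} (h : IsEigensystem e a)
    {ℓ : ℕ} (hℓ : ℓ.Prime) {n : ℕ} (hn : ¬ ℓ ∣ n) :
    a (ℓ * n) = a ℓ * a n := by
  have h1 := h.2 ℓ hℓ n
  rw [if_neg hn, mul_zero, add_zero] at h1
  exact h1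

/-- Relation when `n = ℓ * k`. -/
theorem isEigensystem_mul_mul {e a : ℕ → R} (h : IsEigensystem e a)
    {ℓ : ℕ} (hℓ : ℓ.Prime) (k : ℕ) :
    a (ℓ * (ℓ * k)) = a ℓ * a (ℓ * k) - e ℓ * a k := by
  have h1 := h.2 ℓ hℓ (ℓ * k)
  rw [if_pos (dvd_mul_right ℓ k), Nat.mul_div_cancel_left _ hℓ.pos] at h1
  rw [← h1]; ring

/-- A formal Hecke eigensystem is multiplicative on coprime arguments. -/
theorem isEigensystem_mul_of_coprime {e a : ℕ → R} (h : IsEigensystem e a) :
    ∀ m n : ℕ, m.Coprime n → a (m * n) = a m * a n := by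
  intro m
  induction m using Nat.strong_induction_on with
  | _ m ih =>
    intro n hmn
    rcases Nat.eq_zero_or_pos m with hm0 | hmpos
    · subst hm0
      have hn1 : n = 1 := by simpa using hmn
      subst hn1
      simp [h.1]
    rcases Nat.eq_or_lt_of_le (Nat.succ_le_of_lt hmpos) with hm1 | hm1
    · have : m = 1 := hm1.symm
      subst this
      simp [h.1]
    -- m ≥ 2: pick a prime factor
    obtain ⟨ℓ, hℓ, hℓm⟩ := Nat.exists_prime_and_dvd (show m ≠ 1 by omega)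
    obtain ⟨m', rfl⟩ := hℓm
    have hm'pos : 0 < m' := Nat.pos_of_ne_zero (by rintro rfl; simp at hmpos)
    have hm'lt : m' < ℓ * m' := by
      have := hℓ.two_le
      nlinarith
    have hcop' : m'.Coprime n := Nat.Coprime.coprime_mul_left hmn
    have hℓn : ¬ ℓ ∣ n := by
      intro hdvd
      have hℓcop : ℓ.Coprime n := Nat.Coprime.coprime_mul_right hmn
      have := Nat.eq_one_of_dvd_coprimes hℓcop (dvd_refl ℓ) hdvd
      exact hℓ.one_lt.ne' this
    by_cases hℓm' : ℓ ∣ m'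
    · obtain ⟨m'', rfl⟩ := hℓm'
      have hm''pos : 0 < m'' := Nat.pos_of_ne_zero (by rintro rfl; simp at hm'pos)
      have hm''lt : m'' < ℓ * (ℓ * m'') := by
        have := hℓ.two_le
        nlinarith
      have hcop'' : m''.Coprime n := Nat.Coprime.coprime_mul_left hcop'
      have e1 : ℓ * (ℓ * m'') * n = ℓ * (ℓ * (m'' * n)) := by ring
      have e2 : ℓ * (m'' * n) = (ℓ * m'') * n := by ring
      rw [e1, isEigensystem_mul_mul h hℓ (m'' * n), e2, ih (ℓ * m'') hm'lt n hcop', ih m'' hm''lt n hcop'',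
        isEigensystem_mul_mul h hℓ m'']
      ring
    · have hℓm'n : ¬ ℓ ∣ m' * n := by
        intro hdvd
        rcases (Nat.Prime.dvd_mul hℓ).1 hdvd with h1 | h1
        · exact hℓm' h1
        · exact hℓn h1
      have e1 : ℓ * m' * n = ℓ * (m' * n) := by ring
      rw [e1, isEigensystem_mul_of_not_dvd h hℓ hℓm'n, ih m' hm'lt n hcop', isEigensystem_mul_of_not_dvd h hℓ hℓm']
      ring

/-- A formal Hecke eigensystem satisfies the multiplicative recursions. -/
theorem isRecursive_of_isEigensystem {e a : ℕ → R} (h : IsEigensystem e a) :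
    IsRecursive e a :=
  ⟨h.1, isEigensystem_mul_of_coprime h, fun _ r hℓ => isEigensystem_prime_pow_rec h hℓ r⟩

end Fermat.Agent.S49
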