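import Mathlib
import Fermat.Prelude.Def_FLTPrelim_Modularity
import Fermat.Prelude.Def_FormalHecke_Eigensystem
import Fermat.Prelude.Def_CuspForm_HeckeAlgebra
import Fermat.Prelude.Thm_ModularFormClass_qCoeff_heckeT
import Fermat.Prelude.Thm_ModularFormClass_qCoeff_heckeU
import Fermat.Prelude.Thm_CongruenceSubgroup_one_mem_strictPeriods_Gamma0
import Fermat.Agent.S49.FormalHeckeRecursive

set_option autoImplicit false

open UpperHalfPlane ModularFormClass CongruenceSubgroup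

namespace Fermat.Agent.S49

variable {N : ℕ}

/-- `qCoeff` of a scalar multiple of a cusp form. -/
theorem qCoeff_smul_cuspForm {k : ℤ} (c : ℂ) (f : CuspForm (Gamma0 N) k) (n : ℕ) :
    qCoeff (c • f : CuspForm (Gamma0 N) k) n = c * qCoeff f n := by
  have h1 : ((c • f : CuspForm (Gamma0 N) k) : ℍ → ℂ) = c • (f : ℍ → ℂ) := rfl
  unfold qCoeff
  rw [h1, ModularForm.qExpansion_smul one_pos (CongruenceSubgroup.one_mem_strictPeriods_Gamma0 N) c f]
  simp

/-- `qCoeff` of `T_ℓ f` for a cusp form. -/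
theorem qCoeff_heckeTLin_cuspForm {k : ℤ} {ℓ : ℕ} (hℓ : ℓ.Prime) (hℓN : ¬ ℓ ∣ N)
    (f : CuspForm (Gamma0 N) k) (n : ℕ) :
    qCoeff (CuspForm.heckeTLin k hℓ hℓN f) n = ModularForm.coeffHeckeT k ℓ (qCoeff f) n := by
  rw [CuspForm.coe_heckeTLin_apply]
  exact ModularFormClass.qCoeff_heckeT f (CongruenceSubgroup.one_mem_strictPeriods_Gamma0 N)
    hℓ.ne_zero n

/-- `qCoeff` of `U_q f` for a cusp form. -/
theorem qCoeff_heckeULin_cuspForm {k : ℤ} [NeZero N] {q : ℕ} (hq : q.Prime) (hqN : q ∣ N)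
    (f : CuspForm (Gamma0 N) k) (n : ℕ) :
    qCoeff (CuspForm.heckeULin k hqN f) n = ModularForm.coeffHeckeU q (qCoeff f) n := by
  rw [CuspForm.coe_heckeULin_apply]
  exact ModularFormClass.qCoeff_heckeU f (CongruenceSubgroup.one_mem_strictPeriods_Gamma0 N)
    hq.ne_zero n

/-- The `q`-coefficients of a normalised simultaneous eigenvector of all `T_ℓ` (`ℓ ∤ N`) and all
`U_q` (`q ∣ N`) in weight `2` form a formal Hecke eigensystem. -/
theorem isEigensystem_qCoeff_of_eigenvector [NeZero N] (f : CuspForm (Gamma0 N) 2)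
    (h1 : qCoeff f 1 = 1)
    (hT : ∀ (ℓ : ℕ) (hℓ : ℓ.Prime) (hℓN : ¬ ℓ ∣ N), ∃ c : ℂ, CuspForm.heckeTLin 2 hℓ hℓN f = c • f)
    (hU : ∀ (q : ℕ) (_ : q.Prime) (hqN : q ∣ N), ∃ c : ℂ, CuspForm.heckeULin 2 hqN f = c • f) :
    FormalHecke.IsEigensystem (fun ℓ => if ℓ ∣ N then 0 else (ℓ : ℂ)) (fun n => qCoeff f n) := by
  refine ⟨h1, fun ℓ hℓ n => ?_⟩
  by_cases hℓN : ℓ ∣ N
  · obtain ⟨c, hc⟩ := hU ℓ hℓ hℓN
    have key : ∀ m : ℕ, qCoeff f (m * ℓ) = c * qCoeff f m := by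
      intro m
      have := qCoeff_heckeULin_cuspForm hℓ hℓN f m
      rw [hc, qCoeff_smul_cuspForm, ModularForm.coeffHeckeU_apply] at this
      exact this.symm
    have hcℓ : qCoeff f ℓ = c := by
      have := key 1
      rwa [one_mul, h1, mul_one] at this
    simp only [if_pos hℓN, zero_mul, add_zero]
    rw [mul_comm ℓ n, key n, hcℓ]
  · obtain ⟨c, hc⟩ := hT ℓ hℓ hℓN
    have key : ∀ m : ℕ, qCoeff f (m * ℓ) +
        (if ℓ ∣ m then (ℓ : ℂ) ^ ((2 : ℤ) - 1) * qCoeff f (m / ℓ) else 0) = c * qCoeff f m := by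
      intro m
      have := qCoeff_heckeTLin_cuspForm hℓ hℓN f m
      rw [hc, qCoeff_smul_cuspForm, ModularForm.coeffHeckeT_apply] at this
      exact this.symm
    have hcℓ : qCoeff f ℓ = c := by
      have := key 1
      have hnd : ¬ ℓ ∣ 1 := fun h => hℓ.one_lt.ne' (Nat.dvd_one.1 h)
      rwa [if_neg hnd, add_zero, one_mul, h1, mul_one] at this
    have hk := key n
    simp only [if_neg hℓN]
    rw [mul_comm ℓ n, hcℓ, ← hk]
    congr 1
    split_ifs
    · norm_num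
    · simp

/-- A normalised simultaneous eigenvector of all `T_ℓ` (`ℓ ∤ N`) and all `U_q` (`q ∣ N`) in
weight `2` is a normalised eigenform in the sense of the prelude. -/
theorem isNormalizedEigenform_of_eigenvector [NeZero N] (f : CuspForm (Gamma0 N) 2)
    (h1 : qCoeff f 1 = 1)
    (hT : ∀ (ℓ : ℕ) (hℓ : ℓ.Prime) (hℓN : ¬ ℓ ∣ N), ∃ c : ℂ, CuspForm.heckeTLin 2 hℓ hℓN f = c • f)
    (hU : ∀ (q : ℕ) (_ : q.Prime) (hqN : q ∣ N), ∃ c : ℂ, CuspForm.heckeULin 2 hqN f = c • f) :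
    f.IsNormalizedEigenform := by
  have hE := isEigensystem_qCoeff_of_eigenvector f h1 hT hU
  refine ⟨h1, fun m n hmn => isEigensystem_mul_of_coprime hE m n hmn, ?_, ?_⟩
  · intro p r hp hpN
    have := isEigensystem_prime_pow_rec hE hp r
    simpa only [if_neg hpN] using this
  · intro p r hp hpN
    have := isEigensystem_prime_pow_rec hE hp r
    simpa only [if_pos hpN, zero_mul, sub_zero] using this

/-- The zeroth `q`-coefficient of a cusp form on `Γ₀(N)` vanishes. -/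
theorem qCoeff_zero_cuspForm {k : ℤ} (f : CuspForm (Gamma0 N) k) : qCoeff f 0 = 0 :=
  CuspFormClass.qExpansion_coeff_zero f one_pos (CongruenceSubgroup.one_mem_strictPeriods_Gamma0 N)

/-- A cusp form on `Γ₀(N)` all of whose `q`-coefficients vanish is zero. -/
theorem cuspForm_eq_zero_of_qCoeff {k : ℤ} (f : CuspForm (Gamma0 N) k)
    (h : ∀ n : ℕ, qCoeff f n = 0) : f = 0 := by
  have hΓ := CongruenceSubgroup.one_mem_strictPeriods_Gamma0 N
  have : Fact (IsCusp OnePoint.infty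
      (Subgroup.map (Matrix.SpecialLinearGroup.mapGL ℝ) (Gamma0 N))) :=
    ⟨Subgroup.isCusp_of_mem_strictPeriods one_pos hΓ⟩
  have hq : qExpansion 1 (f : ℍ → ℂ) = 0 := by
    ext n
    simpa [qCoeff] using h n
  have hf : (f : ℍ → ℂ) = 0 :=
    (qExpansion_eq_zero_iff one_pos (SlashInvariantFormClass.periodic_comp_ofComplex f hΓ)
      (CuspFormClass.holo f) (ModularFormClass.bdd_at_infty f)).1 hq
  exact DFunLike.coe_injective hf

/-- A nonzero simultaneous eigenvector of all `T_ℓ` (`ℓ ∤ N`) and all `U_q` (`q ∣ N`) has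
non-vanishing first `q`-coefficient. -/
theorem qCoeff_one_ne_zero_of_eigenvector [NeZero N] {k : ℤ} (f : CuspForm (Gamma0 N) k)
    (hf : f ≠ 0)
    (hT : ∀ (ℓ : ℕ) (hℓ : ℓ.Prime) (hℓN : ¬ ℓ ∣ N), ∃ c : ℂ, CuspForm.heckeTLin k hℓ hℓN f = c • f)
    (hU : ∀ (q : ℕ) (_ : q.Prime) (hqN : q ∣ N), ∃ c : ℂ, CuspForm.heckeULin k hqN f = c • f) :
    qCoeff f 1 ≠ 0 := by
  intro h1
  apply hf
  apply cuspForm_eq_zero_of_qCoeff
  intro n
  induction n using Nat.strong_induction_on with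
  | _ n ih =>
    rcases Nat.eq_zero_or_pos n with hn0 | hnpos
    · subst hn0; exact qCoeff_zero_cuspForm f
    rcases Nat.eq_or_lt_of_le (Nat.succ_le_of_lt hnpos) with hn1 | hn1
    · have : n = 1 := hn1.symm
      subst this; exact h1
    obtain ⟨ℓ, hℓ, hℓn⟩ := Nat.exists_prime_and_dvd (show n ≠ 1 by omega)
    obtain ⟨m, rfl⟩ := hℓn
    have hmpos : 0 < m := Nat.pos_of_ne_zero (by rintro rfl; simp at hnpos)
    have hmlt : m < ℓ * m := by
      have := hℓ.two_le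
      nlinarith
    by_cases hℓN : ℓ ∣ N
    · obtain ⟨c, hc⟩ := hU ℓ hℓ hℓN
      have := qCoeff_heckeULin_cuspForm hℓ hℓN f m
      rw [hc, qCoeff_smul_cuspForm, ModularForm.coeffHeckeU_apply, ih m hmlt, mul_zero] at this
      rw [mul_comm ℓ m]
      exact this.symm
    · obtain ⟨c, hc⟩ := hT ℓ hℓ hℓN
      have := qCoeff_heckeTLin_cuspForm hℓ hℓN f m
      rw [hc, qCoeff_smul_cuspForm, ModularForm.coeffHeckeT_apply, ih m hmlt, mul_zero] at this
      have hdiv : (if ℓ ∣ m then (ℓ : ℂ) ^ (k - 1) * qCoeff f (m / ℓ) else 0) = 0 := by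
        split_ifs with hdvd
        · have hlt : m / ℓ < ℓ * m := lt_of_le_of_lt (Nat.div_le_self m ℓ) hmlt
          rw [ih (m / ℓ) hlt, mul_zero]
        · rfl
      rw [hdiv, add_zero] at this
      rw [mul_comm ℓ m]
      exact this.symm

end Fermat.Agent.S49
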