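import Mathlib

/-!
# Simultaneous eigenvectors for a commutative ring of endomorphisms

Linear-algebra input for the lifting lemma (S49): a commutative ring `A` acting faithfully on a
finite-dimensional vector space over an algebraically closed field has, below every prime ideal
`𝔪`, the kernel of an eigencharacter occurring in the space.
-/

set_option autoImplicit false

namespace Fermat.Agent.S49

open Module

variable {K V : Type*} [Field K] [IsAlgClosed K] [AddCommGroup V] [Module K V]
  [FiniteDimensional K V]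

/-- A pairwise commuting set of endomorphisms has a common eigenvector in every nonzero
invariant subspace. -/
theorem exists_common_eigenvector (F : Set (Module.End K V))
    (hcomm : ∀ s ∈ F, ∀ t ∈ F, Commute s t)
    (W : Submodule K V) (hW : W ≠ ⊥) (hstab : ∀ t ∈ F, ∀ w ∈ W, t w ∈ W) :
    ∃ v ∈ W, v ≠ 0 ∧ ∀ t ∈ F, ∃ μ : K, t v = μ • v := by
  induction h : finrank K W using Nat.strong_induction_on generalizing W with
  | _ n ih =>
  by_cases hsc : ∀ t ∈ F, ∃ μ : K, ∀ w ∈ W, t w = μ • w
  · obtain ⟨v, hv, hv0⟩ := Submodule.exists_mem_ne_zero_of_ne_bot hW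
    exact ⟨v, hv, hv0, fun t ht => (hsc t ht).imp fun μ hμ => hμ v hv⟩
  · push Not at hsc
    obtain ⟨t, ht, hns⟩ := hsc
    have : Nontrivial W := (Submodule.nontrivial_iff_ne_bot).2 hW
    obtain ⟨μ, hμ⟩ := Module.End.exists_eigenvalue (t.restrict (hstab t ht))
    obtain ⟨w, hw⟩ := hμ.exists_hasEigenvector
    have hw0 : (w : V) ≠ 0 := fun h0 => hw.2 (Subtype.ext h0)
    have hwe : t (w : V) = μ • (w : V) := by
      have := hw.apply_eq_smul
      exact congrArg Subtype.val this
    obtain ⟨w₀, hw₀W, hw₀⟩ := hns μ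
    let W' : Submodule K V := W ⊓ LinearMap.ker (t - μ • (1 : Module.End K V))
    have hmemW' : ∀ x, x ∈ W' ↔ x ∈ W ∧ t x = μ • x := by
      intro x
      simp only [W', Submodule.mem_inf, LinearMap.mem_ker, LinearMap.sub_apply,
        LinearMap.smul_apply, Module.End.one_apply, sub_eq_zero]
    have hW'ne : W' ≠ ⊥ := by
      intro hbot
      have : (w : V) ∈ W' := (hmemW' _).2 ⟨w.2, hwe⟩
      rw [hbot, Submodule.mem_bot] at this
      exact hw0 this
    have hW'lt : W' < W := by
      refine lt_of_le_of_ne inf_le_left ?_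
      intro heq
      have : w₀ ∈ W' := heq ▸ hw₀W
      exact hw₀ ((hmemW' _).1 this).2
    have hfin : finrank K W' < n := h ▸ Submodule.finrank_lt_finrank_of_lt hW'lt
    have hstab' : ∀ s ∈ F, ∀ x ∈ W', s x ∈ W' := by
      intro s hs x hx
      rw [hmemW'] at hx ⊢
      refine ⟨hstab s hs x hx.1, ?_⟩
      have hc : t (s x) = s (t x) := by
        have := (hcomm t ht s hs).eq
        exact congrArg (fun f : Module.End K V => f x) this
      rw [hc, hx.2, map_smul]
    obtain ⟨v, hv, hv0, hvF⟩ := ih _ hfin W' hW'ne hstab' rfl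
    exact ⟨v, ((hmemW' _).1 hv).1, hv0, hvF⟩

/-- A commutative ring acting faithfully on a finite-dimensional vector space over an
algebraically closed field: below every prime ideal there is the kernel of an eigencharacter. -/
theorem exists_character_ker_le_prime {A : Type*} [CommRing A] (ρ : A →+* Module.End K V)
    (hρ : Function.Injective ρ) (𝔪 : Ideal A) [h𝔪 : 𝔪.IsPrime] :
    ∃ (χ : A →+* K) (v : V), v ≠ 0 ∧ (∀ t, ρ t v = χ t • v) ∧ RingHom.ker χ ≤ 𝔪 := by
  classical
  set d := finrank K V with hd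
  -- the statement proved by induction on `d - dim ker (ρ P)^d` for `P ∉ 𝔪`
  suffices H : ∀ k : ℕ, ∀ P : A, P ∉ 𝔪 → d - finrank K (LinearMap.ker ((ρ P) ^ d)) = k →
      ∃ (χ : A →+* K) (v : V), v ≠ 0 ∧ (∀ t, ρ t v = χ t • v) ∧ RingHom.ker χ ≤ 𝔪 by
    exact H _ 1 (fun h1 => h𝔪.ne_top ((Ideal.eq_top_iff_one _).2 h1)) rfl
  intro k
  induction k using Nat.strong_induction_on with
  | _ k ih =>
  intro P hP hk
  have hPd : P ^ d ∉ 𝔪 := fun h => hP (h𝔪.mem_of_pow_mem d h)
  have hPd0 : (ρ P) ^ d ≠ 0 := by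
    intro h0
    apply hPd
    have : P ^ d = 0 := hρ (by rw [map_pow, h0, map_zero])
    rw [this]; exact 𝔪.zero_mem
  -- the stable image of `ρ P`
  let W : Submodule K V := LinearMap.range ((ρ P) ^ d)
  have hWne : W ≠ ⊥ := by
    intro hbot
    exact hPd0 (LinearMap.range_eq_bot.1 hbot)
  have hcommρ : ∀ s t : A, Commute (ρ s) (ρ t) := fun s t => by
    rw [Commute, SemiconjBy, ← map_mul, ← map_mul, mul_comm]
  have hstab : ∀ t ∈ Set.range ρ, ∀ w ∈ W, t w ∈ W := by
    rintro _ ⟨t, rfl⟩ w ⟨u, rfl⟩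
    refine ⟨ρ t u, ?_⟩
    have := ((hcommρ t P).pow_right d).eq
    exact (congrArg (fun f : Module.End K V => f u) this).symm
  obtain ⟨v, hvW, hv0, hvF⟩ := exists_common_eigenvector (Set.range ρ)
    (by rintro _ ⟨s, rfl⟩ _ ⟨t, rfl⟩; exact hcommρ s t) W hWne hstab
  choose χ₀ hχ₀ using fun t : A => hvF (ρ t) ⟨t, rfl⟩
  have hinj : Function.Injective fun c : K => c • v := smul_left_injective K hv0
  let χ : A →+* K :=
    { toFun := χ₀
      map_one' := hinj (by simp only [← hχ₀, map_one, Module.End.one_apply, one_smul])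
      map_mul' := fun s t => hinj (by
        change χ₀ (s * t) • v = (χ₀ s * χ₀ t) • v
        rw [← hχ₀, map_mul, Module.End.mul_apply, hχ₀ t, map_smul, hχ₀ s, smul_smul, mul_comm])
      map_zero' := hinj (by simp only [← hχ₀, map_zero, LinearMap.zero_apply, zero_smul])
      map_add' := fun s t => hinj (by
        simp only [← hχ₀, map_add, LinearMap.add_apply, add_smul]) }
  have hχ : ∀ t, ρ t v = χ t • v := hχ₀
  by_cases hker : RingHom.ker χ ≤ 𝔪
  · exact ⟨χ, v, hv0, hχ, hker⟩
  · obtain ⟨s, hsker, hs𝔪⟩ := SetLike.not_le_iff_exists.1 hker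
    have hχs : χ s = 0 := hsker
    have hpow : ∀ (t : A) (m : ℕ), ((ρ t) ^ m) v = (χ t) ^ m • v := by
      intro t m
      induction m with
      | zero => simp
      | succ m ihm => rw [pow_succ', Module.End.mul_apply, ihm, map_smul, hχ, smul_smul, pow_succ]
    have hdpos : 0 < d := by
      have : Nontrivial V := ⟨⟨v, 0, hv0⟩⟩
      exact finrank_pos
    -- `χ P ≠ 0`
    have hχP : χ P ≠ 0 := by
      intro h0
      obtain ⟨u, hu⟩ := hvW
      have hPv : (ρ P) v = 0 := by rw [hχ, h0, zero_smul]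
      have hu' : u ∈ LinearMap.ker ((ρ P) ^ (d + 1)) := by
        rw [LinearMap.mem_ker, pow_succ', Module.End.mul_apply]
        change (ρ P) (((ρ P) ^ d) u) = 0
        rw [hu, hPv]
      rw [Module.End.ker_pow_eq_ker_pow_finrank_of_le (Nat.le_succ _)] at hu'
      exact hv0 (hu ▸ hu')
    have hsP : s * P ∉ 𝔪 := fun h => (h𝔪.mem_or_mem h).elim hs𝔪 hP
    have hle : LinearMap.ker ((ρ P) ^ d) ≤ LinearMap.ker ((ρ (s * P)) ^ d) := by
      intro x hx
      rw [LinearMap.mem_ker] at hx ⊢
      rw [map_mul, (hcommρ s P).mul_pow, Module.End.mul_apply, hx, map_zero]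
    have hlt : LinearMap.ker ((ρ P) ^ d) < LinearMap.ker ((ρ (s * P)) ^ d) := by
      refine lt_of_le_of_ne hle ?_
      intro heq
      have hv1 : v ∈ LinearMap.ker ((ρ (s * P)) ^ d) := by
        rw [LinearMap.mem_ker, hpow, map_mul, hχs, zero_mul, zero_pow hdpos.ne', zero_smul]
      rw [← heq, LinearMap.mem_ker, hpow] at hv1
      exact (smul_ne_zero (pow_ne_zero d hχP) hv0) hv1
    have hfl := Submodule.finrank_lt_finrank_of_lt hlt
    have hfle : finrank K (LinearMap.ker ((ρ (s * P)) ^ d)) ≤ d := Submodule.finrank_le _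
    exact ih (d - finrank K (LinearMap.ker ((ρ (s * P)) ^ d))) (by omega) (s * P) hsP rfl

end Fermat.Agent.S49
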