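import Mathlib
import Fermat.Prelude.Def_FormalHecke_Eigensystem

/-!
# Formal Hecke eigensystems are multiplicative

The Hecke relations at primes imply multiplicativity on coprime arguments and the
prime-power recursion.
-/

set_option autoImplicit false

namespace Fermat.Agent.S49

theorem formal_isRecursive_of_isEigensystem {R : Type*} [CommRing R] {e a : ℕ → R}
    (h : FormalHecke.IsEigensystem e a) : FormalHecke.IsRecursive e a := by
  obtain ⟨h1, hrel⟩ := h
  refine ⟨h1, ?_, ?_⟩
  · intro m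
    induction m using Nat.strong_induction_on with
    | _ m ih =>
    intro n hmn
    rcases Nat.eq_zero_or_pos m with rfl | hmpos
    · have hn : n = 1 := by simpa using hmn
      subst hn
      simp [h1]
    by_cases hm1 : m = 1
    · subst hm1
      simp [h1]
    obtain ⟨ℓ, hℓ, hℓm⟩ := Nat.exists_prime_and_dvd hm1
    obtain ⟨m', rfl⟩ := hℓm
    have hm'pos : 0 < m' := by
      rcases Nat.eq_zero_or_pos m' with h0 | h0
      · subst h0; simp at hmpos
      · exact h0
    have hm'lt : m' < ℓ * m' := by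
      have := hℓ.two_le
      nlinarith
    have hcopℓ : Nat.Coprime ℓ n := Nat.Coprime.coprime_mul_right hmn
    have hcopm' : Nat.Coprime m' n := Nat.Coprime.coprime_mul_left hmn
    have hdvd : ℓ ∣ m' * n ↔ ℓ ∣ m' := Nat.Coprime.dvd_mul_right hcopℓ
    have e1 := hrel ℓ hℓ (m' * n)
    have e2 := hrel ℓ hℓ m'
    have e3 := ih m' hm'lt n hcopm'
    rw [mul_assoc]
    by_cases hd : ℓ ∣ m'
    · obtain ⟨m'', rfl⟩ := hd
      have hm''lt : m'' < ℓ * (ℓ * m'') := by
        have := hℓ.two_le
        have : 0 < m'' := by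
          rcases Nat.eq_zero_or_pos m'' with h0 | h0
          · subst h0; simp at hm'pos
          · exact h0
        nlinarith
      have hcopm'' : Nat.Coprime m'' n := Nat.Coprime.coprime_mul_left hcopm'
      have e4 := ih m'' hm''lt n hcopm''
      rw [if_pos (hdvd.2 (dvd_mul_right ℓ m''))] at e1
      rw [if_pos (dvd_mul_right ℓ m'')] at e2
      rw [Nat.mul_div_cancel_left _ hℓ.pos] at e2
      rw [mul_assoc, Nat.mul_div_cancel_left _ hℓ.pos, e4] at e1
      rw [mul_assoc] at e3
      rw [e3] at e1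
      have e1' : a (ℓ * (ℓ * m'' * n)) = a ℓ * (a (ℓ * m'') * a n) - e ℓ * (a m'' * a n) := by
        rw [mul_assoc]
        exact eq_sub_of_add_eq e1
      have e2' : a (ℓ * (ℓ * m'')) = a ℓ * a (ℓ * m'') - e ℓ * a m'' := eq_sub_of_add_eq e2
      rw [e1', e2']
      ring
    · rw [if_neg (fun h => hd (hdvd.1 h)), mul_zero, add_zero] at e1
      rw [if_neg hd, mul_zero, add_zero] at e2
      rw [e1, e2, e3]
      ring
  · intro ℓ r hℓ
    have e1 := hrel ℓ hℓ (ℓ ^ (r + 1))
    rw [if_pos (dvd_pow_self ℓ (Nat.succ_ne_zero r))] at e1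
    have h2 : ℓ * ℓ ^ (r + 1) = ℓ ^ (r + 2) := by ring
    have h3 : ℓ ^ (r + 1) / ℓ = ℓ ^ r := by
      rw [pow_succ, Nat.mul_div_cancel _ hℓ.pos]
    rw [h2, h3] at e1
    exact eq_sub_of_add_eq e1

end Fermat.Agent.S49
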