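import Fermat.Agent.S49.Basic
import Fermat.Agent.S49.Eigen
import Fermat.Agent.S49.Formal

/-!
# The lifting lemma: Hecke-algebra part

* restriction of the Hecke algebra to the integral lattice, integrality of Hecke operators;
* an eigenvector of all Hecke operators gives a normalised eigenform;
* the ideal of Hecke operators sending a given integral form into `3 L`.
-/

set_option autoImplicit false

namespace Fermat.Agent.S49

open CuspForm ModularFormClass CongruenceSubgroup UpperHalfPlane EisensteinWeightOne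

variable {N : ℕ} [NeZero N]


/-- Restriction of Hecke operators to the integral lattice. -/
noncomputable def restrictLattice (N : ℕ) [NeZero N] :
    (heckeAlgebra N 2 ∅) →+* Module.End ℤ (intLattice N 2) where
  toFun t := ((t : Module.End ℂ (CuspForm (Gamma0 N) 2)).restrictScalars ℤ).restrict
      (fun _ hx => mem_intLattice_of_mem_heckeAlgebra (by norm_num) t.2 hx)
  map_one' := by ext x; rfl
  map_mul' s t := by ext x; rfl
  map_zero' := by ext x; rfl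
  map_add' s t := by ext x; rfl

theorem restrictLattice_injective (h : CuspForm.HasIntegralBasis N) :
    Function.Injective (restrictLattice N) := by
  rw [injective_iff_map_eq_zero]
  intro t ht
  apply Subtype.ext
  refine LinearMap.ext_on (span_intLattice_eq_top h) ?_
  intro x hx
  have := congrArg (fun f : Module.End ℤ (intLattice N 2) => ((f ⟨x, hx⟩ : intLattice N 2) :
    CuspForm (Gamma0 N) 2)) ht
  exact this

theorem isIntegral_heckeAlgebra (h : CuspForm.HasIntegralBasis N) (t : heckeAlgebra N 2 ∅) :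
    IsIntegral ℤ t := by
  have : Module.Finite ℤ (intLattice N 2) := Module.Finite.iff_fg.2 (intLattice_fg N 2)
  have h1 : IsIntegral ℤ ((restrictLattice N).toIntAlgHom t) :=
    Algebra.IsIntegral.isIntegral _
  exact (isIntegral_algHom_iff _ (restrictLattice_injective h)).1 h1



/-- An eigenvector of all Hecke operators can be normalised to a normalised eigenform. -/
theorem exists_normalizedEigenform_of_eigenvector {v : CuspForm (Gamma0 N) 2} (hv : v ≠ 0)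
    (lamT : ∀ (ℓ : ℕ) (_ : ℓ.Prime) (_ : ¬ ℓ ∣ N), ℂ)
    (hT : ∀ (ℓ : ℕ) (hℓ : ℓ.Prime) (hℓN : ¬ ℓ ∣ N),
      heckeTLin 2 hℓ hℓN v = lamT ℓ hℓ hℓN • v)
    (hU : ∀ (q : ℕ) (_ : q.Prime) (hqN : q ∣ N), ∃ μ : ℂ, heckeULin 2 hqN v = μ • v) :
    ∃ g : CuspForm (Gamma0 N) 2, g.IsNormalizedEigenform ∧
      ∀ (ℓ : ℕ) (hℓ : ℓ.Prime) (hℓN : ¬ ℓ ∣ N), qCoeff ⇑g ℓ = lamT ℓ hℓ hℓN := by
  have hΓ := one_mem_strictPeriods N
  set c : ℕ → ℂ := fun n => qCoeff ⇑v n with hc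
  let e₂ : ℕ → ℂ := fun ℓ => if ℓ ∣ N then 0 else (ℓ : ℂ)
  -- the relations satisfied by the coefficients of `v`
  have relT : ∀ (ℓ : ℕ) (hℓ : ℓ.Prime) (hℓN : ¬ ℓ ∣ N) (n : ℕ),
      c (ℓ * n) + e₂ ℓ * (if ℓ ∣ n then c (n / ℓ) else 0) = lamT ℓ hℓ hℓN * c n := by
    intro ℓ hℓ hℓN n
    have h1 := congrArg (fun f : CuspForm (Gamma0 N) 2 => qCoeff ⇑f n) (hT ℓ hℓ hℓN)
    simp only [qCoeff_smul] at h1
    rw [CuspForm.coe_heckeTLin_apply, ModularFormClass.qCoeff_heckeT v hΓ hℓ.ne_zero n,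
      ModularForm.coeffHeckeT_apply] at h1
    simp only [e₂, if_neg hℓN, hc, mul_comm ℓ n]
    rw [← h1]
    congr 1
    split_ifs <;> simp
  have relU : ∀ (q : ℕ) (hq : q.Prime) (hqN : q ∣ N), ∃ μ : ℂ, ∀ n : ℕ,
      c (q * n) + e₂ q * (if q ∣ n then c (n / q) else 0) = μ * c n := by
    intro q hq hqN
    obtain ⟨μ, hμ⟩ := hU q hq hqN
    refine ⟨μ, fun n => ?_⟩
    have h1 := congrArg (fun f : CuspForm (Gamma0 N) 2 => qCoeff ⇑f n) hμ
    simp only [qCoeff_smul] at h1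
    rw [CuspForm.coe_heckeULin_apply, ModularFormClass.qCoeff_heckeU v hΓ hq.ne_zero n,
      ModularForm.coeffHeckeU_apply] at h1
    simp only [e₂, if_pos hqN, hc, mul_comm q n, zero_mul, add_zero]
    exact h1
  have rel : ∀ (ℓ : ℕ), ℓ.Prime → ∃ μ : ℂ, ∀ n : ℕ,
      c (ℓ * n) + e₂ ℓ * (if ℓ ∣ n then c (n / ℓ) else 0) = μ * c n := by
    intro ℓ hℓ
    by_cases hℓN : ℓ ∣ N
    · exact relU ℓ hℓ hℓN
    · exact ⟨_, relT ℓ hℓ hℓN⟩
  -- the first coefficient does not vanish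
  have hc1 : c 1 ≠ 0 := by
    intro h1
    apply hv
    apply eq_zero_of_forall_qCoeff_eq_zero
    intro n
    change c n = 0
    induction n using Nat.strong_induction_on with
    | _ n ih =>
    rcases Nat.eq_zero_or_pos n with rfl | hpos
    · exact qCoeff_coeff_zero v
    by_cases hn1 : n = 1
    · rw [hn1]; exact h1
    obtain ⟨ℓ, hℓ, m, rfl⟩ := Nat.exists_prime_and_dvd hn1
    obtain ⟨μ, hμ⟩ := rel ℓ hℓ
    have hm0 : 0 < m := by
      rcases Nat.eq_zero_or_pos m with h0 | h0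
      · subst h0; simp at hpos
      · exact h0
    have hmlt : m < ℓ * m := by
      have := hℓ.two_le
      nlinarith
    have e := hμ m
    rw [ih m hmlt, mul_zero] at e
    have h2 : (if ℓ ∣ m then c (m / ℓ) else 0) = 0 := by
      split_ifs with hd
      · exact ih _ (lt_of_le_of_lt (Nat.div_le_self m ℓ) hmlt)
      · rfl
    rw [h2, mul_zero, add_zero] at e
    exact e
  refine ⟨(c 1)⁻¹ • v, ?_, ?_⟩
  · have hb : ∀ n, qCoeff ⇑((c 1)⁻¹ • v) n = (c 1)⁻¹ * c n := fun n => qCoeff_smul _ _ _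
    have heig : FormalHecke.IsEigensystem e₂ (fun n => qCoeff ⇑((c 1)⁻¹ • v) n) := by
      refine ⟨by simp only [hb]; exact inv_mul_cancel₀ hc1, ?_⟩
      intro ℓ hℓ n
      obtain ⟨μ, hμ⟩ := rel ℓ hℓ
      have hμ1 := hμ 1
      have hnd : ¬ ℓ ∣ 1 := fun h => hℓ.one_lt.ne' (Nat.dvd_one.1 h)
      rw [if_neg hnd, mul_zero, add_zero, mul_one] at hμ1
      have hμn := hμ n
      simp only [hb]
      have : (c 1)⁻¹ * c (ℓ * n) + e₂ ℓ * (if ℓ ∣ n then (c 1)⁻¹ * c (n / ℓ) else 0) =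
          (c 1)⁻¹ * (c (ℓ * n) + e₂ ℓ * (if ℓ ∣ n then c (n / ℓ) else 0)) := by
        split_ifs <;> ring
      rw [this, hμn, hμ1]
      field_simp
    obtain ⟨h1, hmul, hpow⟩ := formal_isRecursive_of_isEigensystem heig
    refine ⟨h1, hmul, ?_, ?_⟩
    · intro p r hp hpN
      have := hpow p r hp
      simpa [e₂, hpN] using this
    · intro p r hp hpN
      have := hpow p r hp
      simpa [e₂, hpN] using this
  · intro ℓ hℓ hℓN
    have e := relT ℓ hℓ hℓN 1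
    have hnd : ¬ ℓ ∣ 1 := fun h => hℓ.one_lt.ne' (Nat.dvd_one.1 h)
    rw [if_neg hnd, mul_zero, add_zero, mul_one] at e
    rw [qCoeff_smul]
    change (c 1)⁻¹ * c ℓ = _
    rw [e]
    field_simp



theorem three_dvd_natCast_sub_chiNegThree (n : ℕ) : (3 : ℤ) ∣ (n : ℤ) - chiNegThree n := by
  unfold chiNegThree
  split_ifs <;> omega

theorem three_dvd_coeff_bridgeProduct_sub (a : ℕ → ℤ) (n : ℕ) :
    (3 : ℤ) ∣ PowerSeries.coeff n (bridgeProduct a) - a n := by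
  have he : e1Chi3In ℤ = 1 + PowerSeries.C (3 : ℤ) *
      PowerSeries.mk (fun n => if n = 0 then 0 else 2 * sigmaChi n) := by
    ext m
    simp only [e1Chi3In, e1Chi3, PowerSeries.coeff_map, PowerSeries.coeff_mk, map_add,
      PowerSeries.coeff_one, PowerSeries.coeff_C_mul, Int.coe_castRingHom, Int.cast_id]
    split_ifs <;> ring
  have : PowerSeries.coeff n (bridgeProduct a) =
      a n + 3 * PowerSeries.coeff n (PowerSeries.mk a *
        PowerSeries.mk (fun n => if n = 0 then 0 else 2 * sigmaChi n)) := by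
    rw [bridgeProduct, he, mul_add, mul_one, map_add, PowerSeries.coeff_mk, mul_left_comm,
      PowerSeries.coeff_C_mul]
  rw [this, add_sub_cancel_left]
  exact dvd_mul_right _ _

theorem three_dvd_hecke_relation {a af e : ℕ → ℤ} (heig : FormalHecke.IsEigensystem e a)
    (haf : ∀ n, (3 : ℤ) ∣ af n - a n) {ℓ : ℕ} (hℓ : ℓ.Prime)
    (hc : (3 : ℤ) ∣ (ℓ : ℤ) - e ℓ) (n : ℕ) :
    (3 : ℤ) ∣ af (n * ℓ) + (if ℓ ∣ n then (ℓ : ℤ) * af (n / ℓ) else 0) - a ℓ * af n := by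
  have h := heig.2 ℓ hℓ n
  rw [mul_comm ℓ n] at h
  split_ifs with hd
  · rw [if_pos hd] at h
    have key : af (n * ℓ) + (ℓ : ℤ) * af (n / ℓ) - a ℓ * af n =
        (af (n * ℓ) - a (n * ℓ)) + (ℓ : ℤ) * (af (n / ℓ) - a (n / ℓ)) +
          ((ℓ : ℤ) - e ℓ) * a (n / ℓ) - a ℓ * (af n - a n) := by
      linear_combination h
    rw [key]
    exact dvd_sub (dvd_add (dvd_add (haf _) (Dvd.dvd.mul_left (haf _) _))
      (Dvd.dvd.mul_right hc _)) (Dvd.dvd.mul_left (haf _) _)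
  · rw [if_neg hd, mul_zero, add_zero] at h
    have key : af (n * ℓ) + 0 - a ℓ * af n =
        (af (n * ℓ) - a (n * ℓ)) - a ℓ * (af n - a n) := by
      linear_combination h
    rw [key]
    exact dvd_sub (haf _) (Dvd.dvd.mul_left (haf _) _)

/-- All `q`-coefficients are integers divisible by `3`. -/
def DivByThree (g : CuspForm (Gamma0 N) 2) : Prop :=
  ∀ n : ℕ, ∃ m : ℤ, qCoeff ⇑g n = 3 * (m : ℂ)

theorem divByThree_hecke {g : CuspForm (Gamma0 N) 2} (hg : DivByThree g)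
    (t : heckeAlgebra N 2 ∅) :
    DivByThree ((t : Module.End ℂ (CuspForm (Gamma0 N) 2)) g) := by
  have h3 : (3 : ℂ) ≠ 0 := by norm_num
  have hg' : (3 : ℂ)⁻¹ • g ∈ intLattice N 2 := by
    rw [mem_intLattice_iff]
    intro n
    obtain ⟨m, hm⟩ := hg n
    exact ⟨m, by rw [qCoeff_smul, hm]; field_simp⟩
  have ht := mem_intLattice_of_mem_heckeAlgebra (by norm_num) t.2 hg'
  rw [mem_intLattice_iff] at ht
  intro n
  obtain ⟨m, hm⟩ := ht n
  refine ⟨m, ?_⟩
  have : (t : Module.End ℂ (CuspForm (Gamma0 N) 2)) g =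
      (3 : ℂ) • (t : Module.End ℂ (CuspForm (Gamma0 N) 2)) ((3 : ℂ)⁻¹ • g) := by
    rw [map_smul, smul_smul, mul_inv_cancel₀ h3, one_smul]
  rw [this, qCoeff_smul, hm]

/-- The ideal of Hecke operators sending `f₀` into `3 L`. -/
noncomputable def congIdeal (f₀ : CuspForm (Gamma0 N) 2) : Ideal (heckeAlgebra N 2 ∅) where
  carrier := {t | DivByThree ((t : Module.End ℂ (CuspForm (Gamma0 N) 2)) f₀)}
  add_mem' := by
    intro s t hs ht n
    obtain ⟨m₁, h₁⟩ := hs n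
    obtain ⟨m₂, h₂⟩ := ht n
    refine ⟨m₁ + m₂, ?_⟩
    change qCoeff ⇑((s : Module.End ℂ (CuspForm (Gamma0 N) 2)) f₀ +
      (t : Module.End ℂ (CuspForm (Gamma0 N) 2)) f₀) n = _
    rw [qCoeff_add, h₁, h₂]
    push_cast
    ring
  zero_mem' := by
    intro n
    refine ⟨0, ?_⟩
    change qCoeff ⇑(0 : CuspForm (Gamma0 N) 2) n = _
    simp [qCoeff, UpperHalfPlane.qExpansion_zero]
  smul_mem' := by
    intro c t ht
    exact divByThree_hecke ht c

theorem mem_congIdeal {f₀ : CuspForm (Gamma0 N) 2} {t : heckeAlgebra N 2 ∅} :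
    t ∈ congIdeal f₀ ↔ DivByThree ((t : Module.End ℂ (CuspForm (Gamma0 N) 2)) f₀) :=
  Iff.rfl

section facts

variable {a af : ℕ → ℤ} {f₀ : CuspForm (Gamma0 N) 2}

theorem congIdeal_ne_top (ha1 : a 1 = 1)
    (haf : ∀ n, (af n : ℂ) = qCoeff ⇑f₀ n) (hcong : ∀ n, (3 : ℤ) ∣ af n - a n) :
    congIdeal f₀ ≠ ⊤ := by
  intro htop
  have h1 : (1 : heckeAlgebra N 2 ∅) ∈ congIdeal f₀ := htop ▸ Submodule.mem_top
  obtain ⟨m, hm⟩ := h1 1
  change qCoeff ⇑f₀ 1 = _ at hm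
  rw [← haf] at hm
  have hm' : af 1 = 3 * m := by exact_mod_cast hm
  have := hcong 1
  rw [hm', ha1] at this
  omega

theorem natCast_three_mem_congIdeal
    (haf : ∀ n, (af n : ℂ) = qCoeff ⇑f₀ n) :
    ((3 : ℕ) : heckeAlgebra N 2 ∅) ∈ congIdeal f₀ := by
  intro n
  refine ⟨af n, ?_⟩
  have : ((((3 : ℕ) : heckeAlgebra N 2 ∅)) : Module.End ℂ (CuspForm (Gamma0 N) 2)) f₀ =
      (3 : ℂ) • f₀ := by
    rw [SubringClass.coe_natCast, Module.End.natCast_apply]
    rw [← Nat.cast_smul_eq_nsmul ℂ]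
    norm_num
  rw [this, qCoeff_smul, haf]

theorem heckeT_sub_mem_congIdeal
    (heig : FormalHecke.IsEigensystem
      (fun ℓ => if ℓ ∣ N then 0 else ((chiNegThree ℓ : ℤ) : ℤ)) a)
    (haf : ∀ n, (af n : ℂ) = qCoeff ⇑f₀ n) (hcong : ∀ n, (3 : ℤ) ∣ af n - a n)
    {ℓ : ℕ} (hℓ : ℓ.Prime) (hℓN : ¬ ℓ ∣ N) :
    heckeAlgebra.T hℓ hℓN (Set.notMem_empty ℓ) - ((a ℓ : ℤ) : heckeAlgebra N 2 ∅) ∈
      congIdeal f₀ := by
  intro n
  have hΓ := one_mem_strictPeriods N
  have hd := three_dvd_hecke_relation (af := af) heig hcong hℓ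
    (by simp only [if_neg hℓN]; exact three_dvd_natCast_sub_chiNegThree ℓ) n
  obtain ⟨m, hm⟩ := hd
  refine ⟨m, ?_⟩
  have : ((heckeAlgebra.T hℓ hℓN (Set.notMem_empty ℓ) - ((a ℓ : ℤ) : heckeAlgebra N 2 ∅) :
      heckeAlgebra N 2 ∅) : Module.End ℂ (CuspForm (Gamma0 N) 2)) f₀ =
      heckeTLin 2 hℓ hℓN f₀ - (a ℓ : ℂ) • f₀ := by
    rw [Subalgebra.coe_sub, heckeAlgebra.coe_T, SubringClass.coe_intCast, LinearMap.sub_apply,
      Module.End.intCast_apply, ← Int.cast_smul_eq_zsmul ℂ]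
  rw [this, qCoeff_sub, qCoeff_smul, CuspForm.coe_heckeTLin_apply,
    ModularFormClass.qCoeff_heckeT f₀ hΓ hℓ.ne_zero n, ModularForm.coeffHeckeT_apply]
  simp only [← haf]
  have hm' := congrArg (fun z : ℤ => (z : ℂ)) hm
  push_cast at hm'
  rw [← hm']
  split_ifs <;> simp

end facts

end Fermat.Agent.S49
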